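/-
S26lib / Growth / Insep  (helper5)  --  Project K, the upper growth bound WITHOUT separability

Same statement as `Growth/Upper`, for an arbitrary finite extension `F/E` when the constant field
`K` is perfect: the iterated Frobenius `y ↦ y^(q^e)` maps `F` into the separable closure `Fs` of
`E` in `F`, is additive, Frobenius-semilinear over `K` (so it preserves `K`-linear independence,
`K` being perfect), preserves integrality over `P = K[x]` and multiplies pole orders at infinity by
`q^e`.
-/
import Mathlib
import Fermat.Agent.S26lib.Growth.Upper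

set_option autoImplicit false
set_option linter.unusedSectionVars false

noncomputable section

namespace Fermat.Agent.S26lib.Growth

open MvPolynomial Module WithZero

variable {σ K : Type*} [Fintype σ] [Field K]
variable {E : Type*} [Field E] [Algebra (MvPolynomial σ K) E]
  [IsFractionRing (MvPolynomial σ K) E] [Algebra K E] [IsScalarTower K (MvPolynomial σ K) E]
variable {F : Type*} [Field F] [Algebra (MvPolynomial σ K) F] [Algebra E F]
  [IsScalarTower (MvPolynomial σ K) E F] [Algebra K F] [IsScalarTower K E F]

/-- a family of additive maps that is semilinear for the iterated Frobenius of a perfect field and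
kills no nonzero vector bounds the dimension -/
theorem finite_and_finrank_le_of_frobenius_semilinear [PerfectField K] (q : ℕ) [ExpChar K q]
    (e : ℕ) {V W : Type*} [AddCommGroup V] [Module K V] [AddCommGroup W] [Module K W]
    [Module.Finite K W] (J : V →+ W) (hJ : ∀ (c : K) (v : V), J (c • v) = c ^ q ^ e • J v)
    (hinj : ∀ v, J v = 0 → v = 0) :
    Module.Finite K V ∧ finrank K V ≤ finrank K W := by
  have hrank : Module.rank K V ≤ (finrank K W : ℕ) := by
    apply rank_le
    intro s hs
    have hli : LinearIndependent K (J ∘ fun i : s => (i : V)) := by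
      refine hs.map_of_injective_injective (iterateFrobeniusEquiv K q e).symm J ?_ hinj ?_
      · intro r hr
        simpa using hr
      · intro r m
        rw [hJ]
        congr 1
        rw [← iterateFrobeniusEquiv_def K q e, RingEquiv.apply_symm_apply]
    have := hli.fintype_card_le_finrank
    simpa using this
  refine ⟨?_, finrank_le_of_rank_le hrank⟩
  rw [← Module.rank_lt_aleph0_iff]
  exact hrank.trans_lt (Cardinal.natCast_lt_aleph0)

section Main

variable [PerfectField K] [FiniteDimensional E F]

/-- **THE UPPER GROWTH BOUND, no separability assumption** (`K` perfect). -/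
theorem finrank_le_of_isIntegral' (q : ℕ) [ExpChar K q] (i₀ : σ) :
    ∃ c₀ Q : ℕ, ∀ (N : ℕ) (L : Submodule K F),
      (∀ y ∈ L, IsIntegral (MvPolynomial σ K) y) →
      (∀ y ∈ L, IsIntegral (Oinf σ K E) (y * algebraMap E F (uInf K E i₀ ^ N))) →
        Module.Finite K L ∧
          finrank K L ≤ finrank E (separableClosure E F) * (Q * N + c₀ + 1) ^ Fintype.card σ := by
  classical
  let Fs := separableClosure E F
  have : ExpChar Fs q := expChar_of_injective_algebraMap (algebraMap K Fs).injective q
  have : ExpChar F q := expChar_of_injective_algebraMap (algebraMap K F).injective q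
  have : IsPurelyInseparable Fs F := separableClosure.isPurelyInseparable E F
  have : IsScalarTower (MvPolynomial σ K) Fs F := IsScalarTower.of_algebraMap_eq fun x => rfl
  have : IsScalarTower K Fs F := IsScalarTower.of_algebraMap_eq fun x => rfl
  have : IsScalarTower (Oinf σ K E) Fs F := IsScalarTower.of_algebraMap_eq fun x => rfl
  obtain ⟨s, b, hb⟩ := FiniteDimensional.exists_is_basis_integral (MvPolynomial σ K) E Fs
  choose c hc using fun i : s => exists_isIntegral_mul_uInf_pow (K := K) (E := E) i₀ (b i)
  set e := IsPurelyInseparable.exponent Fs F with he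
  refine ⟨Finset.univ.sup c, q ^ e, fun N L h1 h2 => ?_⟩
  set c₀ := Finset.univ.sup c with hc₀
  let Φ : F →+* Fs := IsPurelyInseparable.iterateFrobenius Fs F q (le_refl e)
  have hΦ : ∀ y : F, algebraMap Fs F (Φ y) = y ^ q ^ e := fun y =>
    IsPurelyInseparable.algebraMap_iterateFrobenius Fs q (le_refl e) y
  have hinjF : Function.Injective (algebraMap Fs F) := (algebraMap Fs F).injective
  -- integrality of `Φ y` over `P` and at infinity
  have hint1 : ∀ y ∈ L, IsIntegral (MvPolynomial σ K) (Φ y) := fun y hy => by
    rw [← isIntegral_algebraMap_iff hinjF, hΦ]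
    exact (h1 y hy).pow _
  have hint2 : ∀ y ∈ L, IsIntegral (Oinf σ K E)
      (Φ y * algebraMap E Fs (uInf K E i₀ ^ (q ^ e * N))) := fun y hy => by
    rw [← isIntegral_algebraMap_iff hinjF, map_mul, hΦ, ← IsScalarTower.algebraMap_apply,
      mul_comm (q ^ e) N, pow_mul, map_pow, ← mul_pow]
    exact (h2 y hy).pow _
  have hmem : ∀ (i : s) (y : L), Algebra.trace E Fs (Φ (y : F) * b i) ∈
      polyLE σ K E (q ^ e * N + c₀) := fun i y =>
    trace_mem_polyLE i₀ (hint1 y y.2) (hb i) (hint2 y y.2)
      (hc i c₀ (Finset.le_sup (Finset.mem_univ i)))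
  -- the Frobenius-semilinear embedding
  let J : L →+ (s → polyLE σ K E (q ^ e * N + c₀)) :=
    { toFun := fun y i => ⟨Algebra.trace E Fs (Φ (y : F) * b i), hmem i y⟩
      map_zero' := by
        funext i
        apply Subtype.ext
        simp
      map_add' := fun y z => by
        funext i
        apply Subtype.ext
        simp [add_mul] }
  have hJ : ∀ (a : K) (y : L), J (a • y) = a ^ q ^ e • J y := fun a y => by
    funext i
    apply Subtype.ext
    show Algebra.trace E Fs (Φ ((a • y : L) : F) * b i) =
      a ^ q ^ e • Algebra.trace E Fs (Φ (y : F) * b i)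
    have h3 : Φ ((a • y : L) : F) = algebraMap K Fs (a ^ q ^ e) * Φ (y : F) := by
      apply hinjF
      rw [map_mul, hΦ, hΦ, ← IsScalarTower.algebraMap_apply, Submodule.coe_smul,
        Algebra.smul_def, mul_pow, map_pow]
    rw [h3, mul_assoc, ← Algebra.smul_def, LinearMap.map_smul_of_tower]
  have hJinj : ∀ y : L, J y = 0 → y = 0 := fun y hy => by
    have h0 : Φ (y : F) = 0 := by
      apply eq_zero_of_trace_mul_basis_eq_zero b
      intro i
      have := congrFun hy i
      exact congrArg Subtype.val this
    have h1 : (y : F) ^ q ^ e = 0 := by rw [← hΦ, h0, map_zero]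
    exact Subtype.ext (pow_eq_zero_iff (pow_pos (expChar_pos K q) e).ne' |>.1 h1)
  obtain ⟨hfin, hle⟩ := finite_and_finrank_le_of_frobenius_semilinear q e J hJ hJinj
  refine ⟨hfin, hle.trans ?_⟩
  calc finrank K (s → polyLE σ K E (q ^ e * N + c₀))
      = Fintype.card s * finrank K (polyLE σ K E (q ^ e * N + c₀)) := by
        rw [Module.finrank_pi_fintype, Finset.sum_const, Finset.card_univ, smul_eq_mul]
    _ ≤ finrank E (separableClosure E F) * (q ^ e * N + c₀ + 1) ^ Fintype.card σ := by
        rw [finrank_eq_card_basis b]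
        exact Nat.mul_le_mul_left _ (finrank_polyLE_le σ K E (q ^ e * N + c₀))

/-- **the growth bound `finrank (L k) ≤ C (k+1)^g`, no separability assumption** -/
theorem exists_growth_bound' (q : ℕ) [ExpChar K q] (i₀ : σ) (c : ℕ) (L : ℕ → Submodule K F)
    (h1 : ∀ k, ∀ y ∈ L k, IsIntegral (MvPolynomial σ K) y)
    (h2 : ∀ k, ∀ y ∈ L k,
      IsIntegral (Oinf σ K E) (y * algebraMap E F (uInf K E i₀ ^ (c * k)))) :
    (∀ k, Module.Finite K (L k)) ∧
      ∃ C : ℕ, ∀ k, finrank K (L k) ≤ C * (k + 1) ^ Fintype.card σ := by
  obtain ⟨c₀, Q, hc₀⟩ := finrank_le_of_isIntegral' (K := K) (E := E) (F := F) q i₀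
  refine ⟨fun k => (hc₀ (c * k) (L k) (h1 k) (h2 k)).1,
    finrank E (separableClosure E F) * (Q * c + c₀ + 1) ^ Fintype.card σ, fun k => ?_⟩
  refine (hc₀ (c * k) (L k) (h1 k) (h2 k)).2.trans ?_
  rw [mul_assoc, ← mul_pow]
  refine Nat.mul_le_mul_left _ (Nat.pow_le_pow_left ?_ _)
  nlinarith [Nat.zero_le k, Nat.zero_le c, Nat.zero_le c₀, Nat.zero_le (Q * c),
    Nat.zero_le (Q * c * k)]

end Main

end Fermat.Agent.S26lib.Growth
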