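/-
S26lib / Growth / Core  (helper5)  --  Project K, the upper growth bound from a CENTRE condition

`P = K[x_i]`, `E = Frac P`, `F/E` finite, `K` perfect.  A family `L k ⊂ F` of `K`-subspaces of
elements integral over `P` (`L k ⊂ B`, `B` integral over `P`) such that every valuation ring `W ⊇ K`
of `F` not containing `B` admits `t` in a FIXED FINITE set `T` of nonzero elements with
`L k · t^k ⊂ W` for all `k` satisfies `dim L k ≤ C (k+1)^(card σ)`.

The pole order at infinity is controlled via "integral closure = intersection of valuation rings".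
-/
import Mathlib
import Fermat.Agent.S26lib.Growth.Insep

set_option autoImplicit false
set_option linter.unusedSectionVars false

noncomputable section

namespace Fermat.Agent.S26lib.Growth

open MvPolynomial Module WithZero

/-- an element lying in every valuation subring containing the image of `R` is integral over `R` -/
theorem isIntegral_of_forall_valuationSubring {R F : Type*} [CommRing R] [Field F] [Algebra R F]
    {z : F} (h : ∀ W : ValuationSubring F, (∀ r : R, algebraMap R F r ∈ W) → z ∈ W) :
    IsIntegral R z := by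
  by_contra hz
  have hz' : z ∉ (integralClosure R F).toSubring := hz
  obtain ⟨V, hV, hzV⟩ := Subring.exists_le_valuationSubring_of_isIntegrallyClosedIn hz'
  exact hzV (h V fun r => hV (isIntegral_algebraMap (R := R) (A := F) (x := r)))

/-- an element integral over `R` lies in every valuation subring containing the image of `R` -/
theorem mem_valuationSubring_of_isIntegral {R F : Type*} [CommRing R] [Field F] [Algebra R F]
    {z : F} (hz : IsIntegral R z) (W : ValuationSubring F)
    (hW : ∀ r : R, algebraMap R F r ∈ W) : z ∈ W := by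
  obtain ⟨p, hmonic, hp⟩ := hz
  let f : R →+* W := (algebraMap R F).codRestrict W.toSubring hW
  have hzW : IsIntegral W z := by
    refine ⟨p.map f, hmonic.map f, ?_⟩
    rw [Polynomial.eval₂_map]
    exact hp
  obtain ⟨w, hw⟩ := IsIntegrallyClosed.isIntegral_iff.mp hzW
  rw [← hw]
  exact w.2

variable {σ K : Type*} [Fintype σ] [Field K]
variable {E : Type*} [Field E] [Algebra (MvPolynomial σ K) E]
  [IsFractionRing (MvPolynomial σ K) E] [Algebra K E] [IsScalarTower K (MvPolynomial σ K) E]
variable {F : Type*} [Field F] [Algebra (MvPolynomial σ K) F] [Algebra E F]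
  [IsScalarTower (MvPolynomial σ K) E F] [Algebra K F] [IsScalarTower K E F]

/-- constants have no pole at infinity -/
theorem degValFrac_algebraMap_const_le_one (c : K) :
    degValFrac σ K E (algebraMap K E c) ≤ 1 := by
  rw [IsScalarTower.algebraMap_apply K (MvPolynomial σ K) E, degValFrac_algebraMap]
  by_cases hc : c = 0
  · simp [hc]
  · have hC : (algebraMap K (MvPolynomial σ K) c) ≠ 0 := by
      rw [Ne, MvPolynomial.algebraMap_eq, MvPolynomial.C_eq_zero]
      exact hc
    rw [degVal_apply_of_ne_zero hC, MvPolynomial.algebraMap_eq, totalDegree_C]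
    simp

/-- **the growth bound from a finite centre condition** -/
theorem exists_growth_bound_of_centre [PerfectField K] [FiniteDimensional E F] (q : ℕ)
    [ExpChar K q] (i₀ : σ) (B : Set F) (hB : ∀ y ∈ B, IsIntegral (MvPolynomial σ K) y)
    (L : ℕ → Submodule K F) (hL : ∀ k, ∀ y ∈ L k, y ∈ B)
    (T : Finset F) (hT0 : ∀ t ∈ T, t ≠ 0)
    (hT : ∀ W : ValuationSubring F, (∀ c : K, algebraMap K F c ∈ W) → ¬ (∀ x ∈ B, x ∈ W) →
      ∃ t ∈ T, ∀ (k : ℕ) (y : F), y ∈ L k → y * t ^ k ∈ W) :
    (∀ k, Module.Finite K (L k)) ∧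
      ∃ C : ℕ, ∀ k, finrank K (L k) ≤ C * (k + 1) ^ Fintype.card σ := by
  classical
  choose c hc using fun t : F => exists_isIntegral_mul_uInf_pow (K := K) (E := E) i₀ (t⁻¹)
  set c₁ := T.sup c with hc₁
  refine exists_growth_bound' (E := E) q i₀ c₁ L (fun k y hy => hB y (hL k y hy))
    (fun k y hy => ?_)
  apply isIntegral_of_forall_valuationSubring
  intro W hW
  have hu : algebraMap E F (uInf K E i₀) ∈ W := by
    have h1 : degValFrac σ K E (uInf K E i₀) ≤ 1 := by
      rw [degValFrac_uInf, ← exp_zero, exp_le_exp]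
      norm_num
    exact hW ⟨uInf K E i₀, h1⟩
  by_cases hBW : ∀ x ∈ B, x ∈ W
  · refine W.mul_mem _ _ (hBW y (hL k y hy)) ?_
    rw [map_pow]
    exact pow_mem hu _
  · have hKW : ∀ a : K, algebraMap K F a ∈ W := fun a => by
      rw [IsScalarTower.algebraMap_apply K E F]
      exact hW ⟨algebraMap K E a, degValFrac_algebraMap_const_le_one a⟩
    obtain ⟨t, htT, ht⟩ := hT W hKW hBW
    have h1 : y * t ^ k ∈ W := ht k y hy
    have h2 : t⁻¹ * algebraMap E F (uInf K E i₀ ^ c₁) ∈ W :=
      mem_valuationSubring_of_isIntegral (hc t c₁ (Finset.le_sup htT)) W hW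
    have e : y * algebraMap E F (uInf K E i₀ ^ (c₁ * k)) =
        (y * t ^ k) * (t⁻¹ * algebraMap E F (uInf K E i₀ ^ c₁)) ^ k := by
      have ht0 : t ≠ 0 := hT0 t htT
      rw [mul_pow, pow_mul, map_pow, map_pow, inv_pow]
      field_simp
    rw [e]
    exact W.mul_mem _ _ h1 (pow_mem h2 k)

end Fermat.Agent.S26lib.Growth
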