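/-
S26lib / Growth / Count  (helper5)  --  Project K, the upper growth bound

Polynomials of total degree `≤ N` in `card σ` variables form a space of dimension `≤ (N+1)^(card σ)`;
the same for its image in a fraction field.
-/
import Mathlib

set_option autoImplicit false

noncomputable section

namespace Fermat.Agent.S26lib.Growth

open MvPolynomial Module

variable (σ K : Type*) [Fintype σ] [Field K]

theorem finrank_restrictDegree_le (N : ℕ) :
    finrank K (restrictDegree σ K N) ≤ (N + 1) ^ Fintype.card σ := by
  classical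
  have hb := finrank_eq_nat_card_basis (basisRestrictSupport K {n : σ →₀ ℕ | ∀ i, n i ≤ N})
  have e : finrank K (restrictDegree σ K N) =
      Nat.card {n : σ →₀ ℕ | ∀ i, n i ≤ N} := hb
  rw [e]
  let φ : {n : σ →₀ ℕ | ∀ i, n i ≤ N} → (σ → Fin (N + 1)) :=
    fun n i => ⟨(n : σ →₀ ℕ) i, Nat.lt_succ_of_le (n.2 i)⟩
  have hφ : Function.Injective φ := by
    intro a b hab
    apply Subtype.ext
    ext i
    have := congrFun hab i
    exact congrArg Fin.val this
  calc Nat.card {n : σ →₀ ℕ | ∀ i, n i ≤ N} ≤ Nat.card (σ → Fin (N + 1)) :=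
        Nat.card_le_card_of_injective φ hφ
    _ = (N + 1) ^ Fintype.card σ := by
        rw [Nat.card_eq_fintype_card, Fintype.card_fun, Fintype.card_fin]

theorem finrank_restrictTotalDegree_le (N : ℕ) :
    finrank K (restrictTotalDegree σ K N) ≤ (N + 1) ^ Fintype.card σ :=
  (Submodule.finrank_mono (restrictTotalDegree_le_restrictDegree σ K N)).trans
    (finrank_restrictDegree_le σ K N)

variable (E : Type*) [Field E] [Algebra (MvPolynomial σ K) E] [Algebra K E]
  [IsScalarTower K (MvPolynomial σ K) E]

/-- the image in `E` of the polynomials of total degree `≤ N` -/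
def polyLE (N : ℕ) : Submodule K E :=
  (restrictTotalDegree σ K N).map ((Algebra.linearMap (MvPolynomial σ K) E).restrictScalars K)

theorem mem_polyLE {N : ℕ} {e : E} :
    e ∈ polyLE σ K E N ↔ ∃ f : MvPolynomial σ K, f.totalDegree ≤ N ∧
      algebraMap (MvPolynomial σ K) E f = e := by
  unfold polyLE
  rw [Submodule.mem_map]
  constructor
  · rintro ⟨f, hf, rfl⟩
    exact ⟨f, (mem_restrictTotalDegree σ N f).1 hf, rfl⟩
  · rintro ⟨f, hf, rfl⟩
    exact ⟨f, (mem_restrictTotalDegree σ N f).2 hf, rfl⟩

instance (N : ℕ) : Module.Finite K (polyLE σ K E N) := by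
  unfold polyLE
  infer_instance

theorem finrank_polyLE_le (N : ℕ) : finrank K (polyLE σ K E N) ≤ (N + 1) ^ Fintype.card σ :=
  (Submodule.finrank_map_le _ _).trans (finrank_restrictTotalDegree_le σ K N)

end Fermat.Agent.S26lib.Growth
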