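/-
S26lib / Growth / DegVal  (helper5)  --  Project K, the upper growth bound

The total-degree valuation of a polynomial ring `K[x_i : i ∈ σ]` over a field, `v(f) = exp(deg f)`,
and its extension to a fraction field `E`: `v(f/h) = exp(deg f - deg h)`.  Its valuation subring is
the local ring "at infinity" `O∞ = {f/h : deg f ≤ deg h}`.
-/
import Mathlib

set_option autoImplicit false

noncomputable section

namespace Fermat.Agent.S26lib.Growth

open MvPolynomial WithZero
open scoped Classical

variable (σ K : Type*) [Field K]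

/-- the total-degree valuation `f ↦ exp (totalDegree f)` of `K[x_i]` -/
def degVal : Valuation (MvPolynomial σ K) ℤᵐ⁰ where
  toFun f := if f = 0 then 0 else exp (f.totalDegree : ℤ)
  map_zero' := by simp
  map_one' := by simp
  map_mul' f h := by
    by_cases hf : f = 0
    · simp [hf]
    by_cases hh : h = 0
    · simp [hh]
    simp only [hf, hh, mul_eq_zero, or_self, if_false]
    rw [totalDegree_mul_of_isDomain hf hh, Nat.cast_add, exp_add]
  map_add_le_max' f h := by
    by_cases hfh : f + h = 0
    · simp [hfh]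
    simp only [hfh, if_false]
    by_cases hf : f = 0
    · subst hf
      rw [zero_add] at hfh ⊢
      simp [hfh]
    by_cases hh : h = 0
    · subst hh
      rw [add_zero] at hfh ⊢
      simp [hfh]
    simp only [hf, hh, if_false]
    rcases le_max_iff.1 (totalDegree_add f h) with h1 | h1
    · exact le_max_of_le_left (exp_le_exp.2 (by exact_mod_cast h1))
    · exact le_max_of_le_right (exp_le_exp.2 (by exact_mod_cast h1))

variable {σ K}

theorem degVal_apply_of_ne_zero {f : MvPolynomial σ K} (hf : f ≠ 0) :
    degVal σ K f = exp (f.totalDegree : ℤ) := by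
  show (if f = 0 then 0 else exp (f.totalDegree : ℤ)) = _
  rw [if_neg hf]

theorem degVal_ne_zero {f : MvPolynomial σ K} (hf : f ≠ 0) : degVal σ K f ≠ 0 := by
  rw [degVal_apply_of_ne_zero hf]
  exact exp_ne_zero

theorem degVal_le_exp_iff {f : MvPolynomial σ K} (hf : f ≠ 0) (N : ℕ) :
    degVal σ K f ≤ exp (N : ℤ) ↔ f.totalDegree ≤ N := by
  rw [degVal_apply_of_ne_zero hf, exp_le_exp]
  exact Nat.cast_le

theorem degVal_X (i : σ) : degVal σ K (X i) = exp (1 : ℤ) := by
  rw [degVal_apply_of_ne_zero (X_ne_zero i), totalDegree_X]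
  rfl

theorem nonZeroDivisors_le_degVal_supp :
    nonZeroDivisors (MvPolynomial σ K) ≤ (degVal σ K).supp.primeCompl := by
  intro f hf
  have hf0 : f ≠ 0 := nonZeroDivisors.ne_zero hf
  show f ∉ (degVal σ K).supp
  rw [Valuation.mem_supp_iff]
  exact degVal_ne_zero hf0

variable (σ K)
variable (E : Type*) [Field E] [Algebra (MvPolynomial σ K) E] [IsFractionRing (MvPolynomial σ K) E]

/-- the total-degree valuation on the fraction field: `v (f/h) = exp (deg f - deg h)` -/
def degValFrac : Valuation E ℤᵐ⁰ :=
  (degVal σ K).extendToLocalization nonZeroDivisors_le_degVal_supp E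

variable {σ K}

@[simp]
theorem degValFrac_algebraMap (f : MvPolynomial σ K) :
    degValFrac σ K E (algebraMap (MvPolynomial σ K) E f) = degVal σ K f :=
  Valuation.extendToLocalization_apply_map_apply _ _ _ f

theorem degValFrac_X (i : σ) :
    degValFrac σ K E (algebraMap (MvPolynomial σ K) E (X i)) = exp (1 : ℤ) := by
  rw [degValFrac_algebraMap, degVal_X]

/-- a polynomial whose image times `x_i^(-N)` is integral at infinity has total degree `≤ N` -/
theorem totalDegree_le_of_degValFrac_le (i : σ) (f : MvPolynomial σ K) (N : ℕ)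
    (h : degValFrac σ K E (algebraMap (MvPolynomial σ K) E f *
      (algebraMap (MvPolynomial σ K) E (X i))⁻¹ ^ N) ≤ 1) : f.totalDegree ≤ N := by
  by_cases hf : f = 0
  · simp [hf]
  rw [map_mul, map_pow, map_inv₀, degValFrac_X, degValFrac_algebraMap] at h
  rw [← degVal_le_exp_iff hf]
  have h1 : (exp (1 : ℤ))⁻¹ ^ N = (exp (N : ℤ))⁻¹ := by
    rw [inv_pow, ← exp_nsmul]
    simp
  rw [h1] at h
  have h2 : exp (N : ℤ) ≠ 0 := exp_ne_zero
  calc degVal σ K f = degVal σ K f * (exp (N : ℤ))⁻¹ * exp (N : ℤ) := by
        rw [mul_assoc, inv_mul_cancel₀ h2, mul_one]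
    _ ≤ 1 * exp (N : ℤ) := by gcongr
    _ = exp (N : ℤ) := one_mul _

/-- every nonzero value of `degValFrac` is `exp` of an integer -/
theorem degValFrac_eq_exp {e : E} (he : e ≠ 0) :
    degValFrac σ K E e = exp (log (degValFrac σ K E e)) :=
  (exp_log ((degValFrac σ K E).ne_zero_iff.2 he)).symm

end Fermat.Agent.S26lib.Growth
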