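/-
S26lib / Growth / FromHyp  (helper5)  --  Project K, THE UPPER GROWTH BOUND for a thin Weil model

`K` algebraically closed, `B ⊂ F` a finitely generated `K`-subalgebra with fraction field `F` of
transcendence degree `g`, `L k ⊂ B` a family of `K`-subspaces with a FINITE centre condition
(see `Growth/Core`).  Then `dim L k ≤ C (k+1)^g`.

Noether normalisation `K[x_1..x_s] ↪ B` (integral), `s ≤ g`; `E = K(x)`; `F/E` finite; then
`Growth/Core`.  The case `s = 0` is separate (`F = K`).
-/
import Mathlib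
import Fermat.Agent.S26lib.Growth.Core
import Fermat.Agent.S26lib.Iface

set_option autoImplicit false
set_option linter.unusedSectionVars false

noncomputable section

namespace Fermat.Agent.S26lib.Growth

open MvPolynomial Module

section Finite

variable {P K E F : Type*} [CommRing P] [Field K] [Field E] [Field F] [Algebra K F]
  [Algebra P F] [Algebra P E] [Algebra E F] [IsScalarTower P E F] [Algebra K E]
  [IsScalarTower K E F]

/-- the fraction field of a finitely generated `K`-algebra `B` integral over `P` is finite over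
`E ⊇ P` -/
theorem finiteDimensional_of_fg_of_isIntegral (B : Subalgebra K F) (hfg : B.FG)
    (hint : ∀ y ∈ B, IsIntegral P y)
    (hfrac : ∀ x : F, ∃ a ∈ B, ∃ b ∈ B, b ≠ 0 ∧ x = a / b) : FiniteDimensional E F := by
  classical
  obtain ⟨S, hS⟩ := hfg
  have hSB : ∀ x ∈ (S : Set F), x ∈ B := fun x hx => hS ▸ Algebra.subset_adjoin hx
  have hSint : ∀ x ∈ (S : Set F), IsIntegral E x := fun x hx => (hint x (hSB x hx)).tower_top
  have hfin := IntermediateField.finiteDimensional_adjoin (K := E) (S := (S : Set F)) hSint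
  have htop : IntermediateField.adjoin E (S : Set F) = ⊤ := by
    rw [eq_top_iff]
    intro x _
    have hBle : ∀ y ∈ B, y ∈ IntermediateField.adjoin E (S : Set F) := by
      intro y hy
      rw [← hS] at hy
      induction hy using Algebra.adjoin_induction with
      | mem z hz => exact IntermediateField.subset_adjoin E (S : Set F) hz
      | algebraMap r =>
        rw [IsScalarTower.algebraMap_apply K E F]
        exact IntermediateField.algebraMap_mem _ _
      | add z w _ _ hz hw => exact add_mem hz hw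
      | mul z w _ _ hz hw => exact mul_mem hz hw
    obtain ⟨a, ha, b, hb, _, rfl⟩ := hfrac x
    exact div_mem (hBle a ha) (hBle b hb)
  rw [htop] at hfin
  exact (IntermediateField.topEquiv (F := E) (E := F)).toLinearEquiv.finiteDimensional

end Finite

section AlgHom

variable {K F : Type*} [Field K] [Field F] [Algebra K F]

/-- the growth bound, given a Noether normalisation `ψ : K[x_1..x_s] ↪ F` of `B` with `s ≥ 1` -/
theorem exists_growth_bound_of_algHom [PerfectField K] (q : ℕ) [ExpChar K q] {s : ℕ} (i₀ : Fin s)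
    (ψ : MvPolynomial (Fin s) K →ₐ[K] F) (hψ : Function.Injective ψ)
    (B : Subalgebra K F) (hfg : B.FG)
    (hint : ∀ y ∈ B, ψ.toRingHom.IsIntegralElem y)
    (hfrac : ∀ x : F, ∃ a ∈ B, ∃ b ∈ B, b ≠ 0 ∧ x = a / b)
    (L : ℕ → Submodule K F) (hL : ∀ k, ∀ y ∈ L k, y ∈ B)
    (T : Finset F) (hT0 : ∀ t ∈ T, t ≠ 0)
    (hT : ∀ W : ValuationSubring F, (∀ c : K, algebraMap K F c ∈ W) → ¬ (∀ x ∈ B, x ∈ W) →
      ∃ t ∈ T, ∀ (k : ℕ) (y : F), y ∈ L k → y * t ^ k ∈ W) :
    (∀ k, Module.Finite K (L k)) ∧ ∃ C : ℕ, ∀ k, finrank K (L k) ≤ C * (k + 1) ^ s := by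
  classical
  let algPF : Algebra (MvPolynomial (Fin s) K) F := ψ.toRingHom.toAlgebra
  have htower : IsScalarTower K (MvPolynomial (Fin s) K) F :=
    IsScalarTower.of_algebraMap_eq fun c => (ψ.commutes c).symm
  have hfaith : FaithfulSMul (MvPolynomial (Fin s) K) F :=
    (faithfulSMul_iff_algebraMap_injective _ _).2 hψ
  have hintB : ∀ y ∈ B, IsIntegral (MvPolynomial (Fin s) K) y := hint
  let algEF : Algebra (FractionRing (MvPolynomial (Fin s) K)) F :=
    FractionRing.liftAlgebra (MvPolynomial (Fin s) K) F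
  have tow1 : IsScalarTower (MvPolynomial (Fin s) K) (FractionRing (MvPolynomial (Fin s) K)) F :=
    FractionRing.isScalarTower_liftAlgebra (MvPolynomial (Fin s) K) F
  have tow2 : IsScalarTower K (FractionRing (MvPolynomial (Fin s) K)) F :=
    IsScalarTower.of_algebraMap_eq fun c => by
      rw [IsScalarTower.algebraMap_apply K (MvPolynomial (Fin s) K)
        (FractionRing (MvPolynomial (Fin s) K)),
        ← IsScalarTower.algebraMap_apply (MvPolynomial (Fin s) K)
          (FractionRing (MvPolynomial (Fin s) K)) F,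
        ← IsScalarTower.algebraMap_apply K (MvPolynomial (Fin s) K) F]
  have hfd : FiniteDimensional (FractionRing (MvPolynomial (Fin s) K)) F :=
    finiteDimensional_of_fg_of_isIntegral (P := MvPolynomial (Fin s) K) B hfg hintB hfrac
  have := exists_growth_bound_of_centre (σ := Fin s) (K := K)
    (E := FractionRing (MvPolynomial (Fin s) K)) (F := F) q i₀ (B : Set F) hintB L hL T hT0 hT
  simpa using this

/-- the case `s = 0`: `B` integral over `K` algebraically closed, so `F = K` -/
theorem finrank_le_one_of_isIntegral [IsAlgClosed K] (B : Subalgebra K F)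
    (hint : ∀ y ∈ B, IsIntegral K y)
    (hfrac : ∀ x : F, ∃ a ∈ B, ∃ b ∈ B, b ≠ 0 ∧ x = a / b) (L : Submodule K F) :
    Module.Finite K L ∧ finrank K L ≤ 1 := by
  have hrange : ∀ y ∈ B, y ∈ (algebraMap K F).range := fun y hy => by
    have h1 : (minpoly K y).degree = 1 :=
      IsAlgClosed.degree_eq_one_of_irreducible K (minpoly.irreducible (hint y hy))
    exact minpoly.mem_range_of_degree_eq_one K y h1
  have hsurj : Function.Surjective (Algebra.linearMap K F) := fun x => by
    obtain ⟨a, ha, b, hb, _, rfl⟩ := hfrac x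
    obtain ⟨a', rfl⟩ := hrange a ha
    obtain ⟨b', rfl⟩ := hrange b hb
    exact ⟨a' / b', by simp⟩
  have hfin : Module.Finite K F := Module.Finite.of_surjective (Algebra.linearMap K F) hsurj
  refine ⟨inferInstance, (Submodule.finrank_le L).trans ?_⟩
  have := LinearMap.finrank_le_finrank_of_surjective hsurj
  rwa [Module.finrank_self] at this

/-- **THE UPPER GROWTH BOUND** for a finitely generated `K`-subalgebra `B` with fraction field `F`
of transcendence degree `g` and a family `L k ⊂ B` with a finite centre condition. -/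
theorem exists_growth_bound_of_fg [IsAlgClosed K] (B : Subalgebra K F) (hfg : B.FG)
    (hfrac : ∀ x : F, ∃ a ∈ B, ∃ b ∈ B, b ≠ 0 ∧ x = a / b)
    (g : ℕ) (htr : Algebra.trdeg K F = g)
    (L : ℕ → Submodule K F) (hL : ∀ k, ∀ y ∈ L k, y ∈ B)
    (T : Finset F) (hT0 : ∀ t ∈ T, t ≠ 0)
    (hT : ∀ W : ValuationSubring F, (∀ c : K, algebraMap K F c ∈ W) → ¬ (∀ x ∈ B, x ∈ W) →
      ∃ t ∈ T, ∀ (k : ℕ) (y : F), y ∈ L k → y * t ^ k ∈ W) :
    ∃ C : ℕ, ∀ k, Module.Finite K (L k) ∧ finrank K (L k) ≤ C * (k + 1) ^ g := by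
  classical
  have hft : Algebra.FiniteType K B := (Subalgebra.fg_iff_finiteType B).1 hfg
  obtain ⟨s, φ, hφinj, hφint⟩ := exists_integral_inj_algHom_of_fg K B
  let ψ : MvPolynomial (Fin s) K →ₐ[K] F := B.val.comp φ
  have hψ : Function.Injective ψ := Subtype.val_injective.comp hφinj
  have hint : ∀ y ∈ B, ψ.toRingHom.IsIntegralElem y := fun y hy => by
    obtain ⟨p, hmonic, hp⟩ := hφint ⟨y, hy⟩
    refine ⟨p, hmonic, ?_⟩
    have := congrArg B.val hp
    rw [map_zero] at this
    rw [← this]
    exact (Polynomial.hom_eval₂ p φ.toRingHom B.val.toRingHom ⟨y, hy⟩).symm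
  -- `s ≤ g`
  have hsg : s ≤ g := by
    have hai : AlgebraicIndependent K (fun i : Fin s => ψ (X i)) := by
      show Function.Injective (aeval fun i : Fin s => ψ (X i))
      have : (aeval fun i : Fin s => ψ (X i)) = ψ := (MvPolynomial.aeval_unique ψ).symm
      rw [this]
      exact hψ
    have h1 := hai.lift_cardinalMk_le_trdeg
    rw [htr] at h1
    simpa using h1
  rcases Nat.eq_zero_or_pos s with hs | hs
  · -- `s = 0`
    subst hs
    have hintK : ∀ y ∈ B, IsIntegral K y := fun y hy => by
      obtain ⟨p, hmonic, hp⟩ := hint y hy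
      let e := MvPolynomial.isEmptyAlgEquiv K (Fin 0)
      have he : ∀ f : MvPolynomial (Fin 0) K, ψ f = algebraMap K F (e f) := fun f => by
        have h1 : f = algebraMap K (MvPolynomial (Fin 0) K) (e f) := by
          rw [MvPolynomial.algebraMap_eq]
          exact (e.symm_apply_apply f).symm
        rw [← ψ.commutes, ← h1]
      refine ⟨p.map e.toAlgHom.toRingHom, hmonic.map _, ?_⟩
      rw [Polynomial.eval₂_map]
      have hcomp : (algebraMap K F).comp e.toAlgHom.toRingHom = ψ.toRingHom :=
        RingHom.ext fun f => (he f).symm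
      rw [hcomp]
      exact hp
    refine ⟨1, fun k => ?_⟩
    obtain ⟨h1, h2⟩ := finrank_le_one_of_isIntegral B hintK hfrac (L k)
    refine ⟨h1, h2.trans ?_⟩
    rw [one_mul]
    exact Nat.one_le_pow _ _ (Nat.succ_pos k)
  · obtain ⟨q, hq⟩ := ExpChar.exists K
    obtain ⟨hfin, C, hC⟩ := exists_growth_bound_of_algHom q (⟨0, hs⟩ : Fin s) ψ hψ B hfg hint
      hfrac L hL T hT0 hT
    refine ⟨C, fun k => ⟨hfin k, (hC k).trans ?_⟩⟩
    exact Nat.mul_le_mul_left _ (Nat.pow_le_pow_right (Nat.succ_pos k) hsg)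

end AlgHom

section Model

universe u

variable {K F : Type u} [Field K] [Field F] [Algebra K F] (M : DivModel K F)

/-- the FINITE form of the centre hypothesis of `DivModel.GrowthHyp`: the witnesses `t` can be
chosen in a fixed finite set of nonzero functions (one for each affine chart of a finite cover of
a neighbourhood of `Supp D`). -/
def FiniteCentre (D : M.ι → ℕ) : Prop :=
  ∃ T : Finset F, (∀ t ∈ T, t ≠ 0) ∧
    ∀ W : ValuationSubring F, (∀ c : K, algebraMap K F c ∈ W) →
      ¬ (∀ x ∈ M.regOff D, x ∈ W) →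
        ∃ t ∈ T, ∀ (k : ℕ) (y : F), y ∈ M.L (M.nsmulDiv k D) → y * t ^ k ∈ W

theorem mem_regOff_of_mem_L (D : M.ι → ℕ) (k : ℕ) {y : F} (hy : y ∈ M.L (M.nsmulDiv k D)) :
    y ∈ M.regOff D := by
  rcases hy with rfl | hy
  · exact Or.inl rfl
  · refine Or.inr fun P hP => ?_
    have := hy P
    simpa [DivModel.nsmulDiv, hP] using this

/-- **(P2, upper bound)**: `dim L(kD) ≤ C (k+1)^g`, from the finite form of the centre
hypothesis. -/
theorem upper_of_finiteCentre [IsAlgClosed K] (D : M.ι → ℕ) (g : ℕ)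
    (hfg : (M.regOff D).FG)
    (hfrac : ∀ x : F, ∃ a ∈ M.regOff D, ∃ b ∈ M.regOff D, b ≠ 0 ∧ x = a / b)
    (htr : Algebra.trdeg K F = g) (hc : FiniteCentre M D) :
    ∃ C : ℕ, ∀ k, Module.Finite K (M.L (M.nsmulDiv k D)) ∧ M.dimL D k ≤ C * (k + 1) ^ g := by
  obtain ⟨T, hT0, hT⟩ := hc
  exact exists_growth_bound_of_fg (M.regOff D) hfg hfrac g htr
    (fun k => M.L (M.nsmulDiv k D)) (fun k y hy => mem_regOff_of_mem_L M D k hy) T hT0 hT

/-- **(P2, upper bound)** in the shape requested by `Squeeze` (`Iface` v2: `GrowthHyp.centre` is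
the finite-candidate form). -/
theorem upper [IsAlgClosed K] (D : M.ι → ℕ) (g : ℕ) (h : M.GrowthHyp D g) :
    ∃ C : ℕ, ∀ k, Module.Finite K (M.L (M.nsmulDiv k D)) ∧ M.dimL D k ≤ C * (k + 1) ^ g :=
  upper_of_finiteCentre M D g h.fg h.frac h.trdeg h.centre

end Model

end Fermat.Agent.S26lib.Growth
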