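/-
S26lib / Growth / Upper  (helper5)  --  Project K, THE UPPER GROWTH BOUND

`P = K[x_i : i ∈ σ]`, `E = Frac P`, `F/E` finite separable, `O∞ ⊂ E` the valuation ring of the
total-degree valuation.  A `K`-subspace `L ⊂ F` whose elements are integral over `P` and have pole
order `≤ N` at infinity (`y · x_{i₀}^{-N}` integral over `O∞`) has dimension
`≤ [F:E] · (N + c₀ + 1)^(card σ)`, with `c₀` depending only on `F/E`.

Proof: trace embedding `y ↦ (Tr(y b_i))_i` for an `E`-basis `b_i` of `F` integral over `P`;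
`Tr(y b_i) ∈ P` (`P` integrally closed) and has total degree `≤ N + c₀` (`O∞` integrally closed).
-/
import Mathlib
import Fermat.Agent.S26lib.Growth.DegVal
import Fermat.Agent.S26lib.Growth.Count

set_option autoImplicit false
set_option linter.unusedSectionVars false

noncomputable section

namespace Fermat.Agent.S26lib.Growth

open MvPolynomial Module WithZero

variable {σ K : Type*} [Fintype σ] [Field K]
variable {E : Type*} [Field E] [Algebra (MvPolynomial σ K) E]
  [IsFractionRing (MvPolynomial σ K) E] [Algebra K E] [IsScalarTower K (MvPolynomial σ K) E]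
variable {F : Type*} [Field F] [Algebra (MvPolynomial σ K) F] [Algebra E F]
  [IsScalarTower (MvPolynomial σ K) E F] [Algebra K F] [IsScalarTower K E F]

variable (σ K E) in
/-- the local ring at infinity of `E = K(x_i)` -/
abbrev Oinf : ValuationSubring E := (degValFrac σ K E).valuationSubring

variable (K E) in
/-- the uniformizer `x_{i₀}⁻¹` at infinity -/
def uInf (i₀ : σ) : E := (algebraMap (MvPolynomial σ K) E (X i₀))⁻¹

theorem degValFrac_uInf (i₀ : σ) : degValFrac σ K E (uInf K E i₀) = exp (-1 : ℤ) := by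
  unfold uInf
  rw [map_inv₀, degValFrac_X, exp_neg]

theorem degValFrac_uInf_pow (i₀ : σ) (n : ℕ) :
    degValFrac σ K E (uInf K E i₀ ^ n) = exp (-(n : ℤ)) := by
  rw [map_pow, degValFrac_uInf, ← exp_nsmul]
  simp

theorem uInf_ne_zero (i₀ : σ) : uInf K E i₀ ≠ 0 := by
  unfold uInf
  apply inv_ne_zero
  rw [Ne, map_eq_zero_iff _ (IsFractionRing.injective (MvPolynomial σ K) E)]
  exact X_ne_zero i₀

/-- elements of `E` of valuation `≤ 1` are integral over `O∞` inside `F` -/
theorem isIntegral_Oinf_algebraMap {e : E} (he : degValFrac σ K E e ≤ 1) :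
    IsIntegral (Oinf σ K E) (algebraMap E F e) := by
  have : algebraMap E F e = algebraMap (Oinf σ K E) F ⟨e, he⟩ := rfl
  rw [this]
  exact isIntegral_algebraMap

/-- every element of `F` becomes integral over `O∞` after multiplication by a power of `x_{i₀}⁻¹` -/
theorem exists_isIntegral_mul_uInf_pow [FiniteDimensional E F] (i₀ : σ) (z : F) :
    ∃ c : ℕ, ∀ c' : ℕ, c ≤ c' →
      IsIntegral (Oinf σ K E) (z * algebraMap E F (uInf K E i₀ ^ c')) := by
  have hz : IsIntegral E z := Algebra.IsIntegral.isIntegral z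
  obtain ⟨m, hm⟩ := IsIntegral.exists_multiple_integral_of_isLocalization
    (nonZeroDivisors (Oinf σ K E)) z hz
  have hm0 : ((m : Oinf σ K E) : E) ≠ 0 := by
    have := nonZeroDivisors.ne_zero m.2
    exact fun h => this (Subtype.ext h)
  have hv0 : degValFrac σ K E ((m : Oinf σ K E) : E) ≠ 0 :=
    (degValFrac σ K E).ne_zero_iff.2 hm0
  have hv1 : degValFrac σ K E ((m : Oinf σ K E) : E) ≤ 1 := (m : Oinf σ K E).2
  set k : ℤ := log (degValFrac σ K E ((m : Oinf σ K E) : E)) with hk
  have hvk : degValFrac σ K E ((m : Oinf σ K E) : E) = exp k := (exp_log hv0).symm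
  have hk0 : k ≤ 0 := by
    rw [hvk, ← exp_zero, exp_le_exp] at hv1
    exact hv1
  refine ⟨(-k).toNat, fun c' hc' => ?_⟩
  have hc'' : -k ≤ (c' : ℤ) := by
    have := Int.toNat_le.1 hc'
    exact this
  -- `z * u^c' = (m • z) * (u^c' / m)`
  have he : degValFrac σ K E (uInf K E i₀ ^ c' * (((m : Oinf σ K E) : E))⁻¹) ≤ 1 := by
    rw [map_mul, degValFrac_uInf_pow, map_inv₀, hvk, ← exp_neg, ← exp_add, ← exp_zero,
      exp_le_exp]
    omega
  have h1 := isIntegral_Oinf_algebraMap (F := F) he
  have h2 := hm.mul h1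
  have e : (m • z) * algebraMap E F (uInf K E i₀ ^ c' * (((m : Oinf σ K E) : E))⁻¹) =
      z * algebraMap E F (uInf K E i₀ ^ c') := by
    have hsm : m • z = algebraMap E F ((m : Oinf σ K E) : E) * z := by
      rw [Submonoid.smul_def, Algebra.smul_def]
      rfl
    rw [hsm, map_mul, map_inv₀]
    have : algebraMap E F ((m : Oinf σ K E) : E) ≠ 0 := by
      rw [Ne, map_eq_zero]
      exact hm0
    field_simp
  rwa [e] at h2

/-- the trace of a product of two elements integral over `P` is a polynomial -/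
theorem exists_poly_eq_trace [FiniteDimensional E F] {y b : F}
    (hy : IsIntegral (MvPolynomial σ K) y) (hb : IsIntegral (MvPolynomial σ K) b) :
    ∃ f : MvPolynomial σ K, algebraMap (MvPolynomial σ K) E f = Algebra.trace E F (y * b) :=
  IsIntegrallyClosed.isIntegral_iff.mp (Algebra.isIntegral_trace (hy.mul hb))

/-- the trace of an element integral over `O∞` has valuation `≤ 1` -/
theorem degValFrac_trace_le_one [FiniteDimensional E F] {z : F}
    (hz : IsIntegral (Oinf σ K E) z) : degValFrac σ K E (Algebra.trace E F z) ≤ 1 := by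
  obtain ⟨o, ho⟩ := IsIntegrallyClosed.isIntegral_iff.mp
    (Algebra.isIntegral_trace (R := Oinf σ K E) (L := E) (F := F) hz)
  rw [← ho]
  exact o.2

/-- **the degree bound for the trace components** -/
theorem trace_mem_polyLE [FiniteDimensional E F] (i₀ : σ) {y b : F} {N c : ℕ}
    (hy : IsIntegral (MvPolynomial σ K) y) (hb : IsIntegral (MvPolynomial σ K) b)
    (hy' : IsIntegral (Oinf σ K E) (y * algebraMap E F (uInf K E i₀ ^ N)))
    (hb' : IsIntegral (Oinf σ K E) (b * algebraMap E F (uInf K E i₀ ^ c))) :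
    Algebra.trace E F (y * b) ∈ polyLE σ K E (N + c) := by
  obtain ⟨f, hf⟩ := exists_poly_eq_trace (E := E) hy hb
  rw [mem_polyLE]
  refine ⟨f, ?_, hf⟩
  apply totalDegree_le_of_degValFrac_le E i₀ f (N + c)
  have h := degValFrac_trace_le_one (hy'.mul hb')
  have e : y * algebraMap E F (uInf K E i₀ ^ N) * (b * algebraMap E F (uInf K E i₀ ^ c)) =
      (uInf K E i₀ ^ (N + c)) • (y * b) := by
    rw [Algebra.smul_def, pow_add, map_mul]
    ring
  rw [e, map_smul, smul_eq_mul, ← hf, mul_comm] at h
  exact h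

variable [FiniteDimensional E F] [Algebra.IsSeparable E F]

/-- the `K`-linear map `y ↦ Tr(y b)` -/
def trMul (b : F) : F →ₗ[K] E :=
  ((Algebra.trace E F).restrictScalars K).comp (LinearMap.mulRight K b)

@[simp] theorem trMul_apply (b y : F) : trMul (K := K) (E := E) b y = Algebra.trace E F (y * b) :=
  rfl

/-- an element all of whose trace components against a basis vanish is zero -/
theorem eq_zero_of_trace_mul_basis_eq_zero {ι : Type*} [Fintype ι] (b : Basis ι E F) {y : F}
    (h : ∀ i, Algebra.trace E F (y * b i) = 0) : y = 0 := by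
  have hnd := traceForm_nondegenerate E F
  refine hnd.1 y fun w => ?_
  rw [Algebra.traceForm_apply]
  have e : w = ∑ i, b.repr w i • b i := (b.sum_repr w).symm
  rw [e, Finset.mul_sum, map_sum]
  refine Finset.sum_eq_zero fun i _ => ?_
  rw [mul_smul_comm, map_smul, h i, smul_zero]

/-- **THE UPPER GROWTH BOUND.** -/
theorem finrank_le_of_isIntegral (i₀ : σ) :
    ∃ c₀ : ℕ, ∀ (N : ℕ) (L : Submodule K F),
      (∀ y ∈ L, IsIntegral (MvPolynomial σ K) y) →
      (∀ y ∈ L, IsIntegral (Oinf σ K E) (y * algebraMap E F (uInf K E i₀ ^ N))) →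
        Module.Finite K L ∧
          finrank K L ≤ finrank E F * (N + c₀ + 1) ^ Fintype.card σ := by
  classical
  obtain ⟨s, b, hb⟩ := FiniteDimensional.exists_is_basis_integral (MvPolynomial σ K) E F
  choose c hc using fun i : s => exists_isIntegral_mul_uInf_pow (K := K) (E := E) i₀ (b i)
  refine ⟨Finset.univ.sup c, fun N L h1 h2 => ?_⟩
  set c₀ := Finset.univ.sup c with hc₀
  have hmem : ∀ (i : s) (y : L), trMul (K := K) (E := E) (b i) (y : F) ∈
      polyLE σ K E (N + c₀) := fun i y =>
    trace_mem_polyLE i₀ (h1 y y.2) (hb i) (h2 y y.2)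
      (hc i c₀ (Finset.le_sup (Finset.mem_univ i)))
  let Φ : L →ₗ[K] (s → polyLE σ K E (N + c₀)) :=
    LinearMap.pi fun i =>
      LinearMap.codRestrict (polyLE σ K E (N + c₀))
        ((trMul (K := K) (E := E) (b i)).comp L.subtype) (hmem i)
  have hΦ : Function.Injective Φ := by
    rw [← LinearMap.ker_eq_bot, LinearMap.ker_eq_bot']
    intro y hy
    apply Subtype.ext
    apply eq_zero_of_trace_mul_basis_eq_zero b
    intro i
    have := congrFun hy i
    exact congrArg Subtype.val this
  have hfin : Module.Finite K L := Module.Finite.of_injective Φ hΦ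
  refine ⟨hfin, ?_⟩
  calc finrank K L ≤ finrank K (s → polyLE σ K E (N + c₀)) :=
        LinearMap.finrank_le_finrank_of_injective hΦ
    _ = Fintype.card s * finrank K (polyLE σ K E (N + c₀)) := by
        rw [Module.finrank_pi_fintype, Finset.sum_const, Finset.card_univ, smul_eq_mul]
    _ ≤ finrank E F * (N + c₀ + 1) ^ Fintype.card σ := by
        rw [finrank_eq_card_basis b]
        exact Nat.mul_le_mul_left _ (finrank_polyLE_le σ K E (N + c₀))

/-- **the growth bound in the shape `finrank (L k) ≤ C (k+1)^g`** for a family `L k` with pole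
order `≤ c k` at infinity. -/
theorem exists_growth_bound (i₀ : σ) (c : ℕ) (L : ℕ → Submodule K F)
    (h1 : ∀ k, ∀ y ∈ L k, IsIntegral (MvPolynomial σ K) y)
    (h2 : ∀ k, ∀ y ∈ L k,
      IsIntegral (Oinf σ K E) (y * algebraMap E F (uInf K E i₀ ^ (c * k)))) :
    (∀ k, Module.Finite K (L k)) ∧
      ∃ C : ℕ, ∀ k, finrank K (L k) ≤ C * (k + 1) ^ Fintype.card σ := by
  obtain ⟨c₀, hc₀⟩ := finrank_le_of_isIntegral (K := K) (E := E) (F := F) i₀
  refine ⟨fun k => (hc₀ (c * k) (L k) (h1 k) (h2 k)).1,
    finrank E F * (c + c₀ + 1) ^ Fintype.card σ, fun k => ?_⟩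
  refine (hc₀ (c * k) (L k) (h1 k) (h2 k)).2.trans ?_
  rw [mul_assoc, ← mul_pow]
  refine Nat.mul_le_mul_left _ (Nat.pow_le_pow_left ?_ _)
  nlinarith [Nat.zero_le k, Nat.zero_le c, Nat.zero_le c₀]

end Fermat.Agent.S26lib.Growth
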